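import Fermat.Agent.LT.CFT.H119.AdmTC
import Fermat.Agent.S55.H963.BrIndexBound
import Fermat.Agent.S55.G.DescH773.Main
import Fermat.Agent.S55.G.CycPowH184

/-!
# Row LT, tower CFT (architect helper53), leaf UP-GEN (helper119), part 3: CLOSED FORMS.
# Layer G (G-SI, G-CYC, G-UP, G-CYCp) at EVERY prime, in particular `p = 2`, over a totally
# complex base field — UNCONDITIONAL

Two observations about the landed layer G of S55:

1. the proof of the SECOND inequality on main (`SI777.secondInequality_of`, from the analytic
   index bound `H963.Br.indexBound`) never uses `p ≠ 2` (nor the root of unity): the analytic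
   bound `[C_S(K) : H] ≤ [L : K]` has no parity in it.  So `secondIneqGen119 p Adm` holds for
   every prime `p` and every side condition;
2. the FIRST inequality on main is proved in the general Herbrand form with the factor
   `∏_{v | ∞} n_v` (`FIH895.FirstIneqSpec`), which is `1` over a totally complex base
   (`AdmTC.lean`).

Hence, with `UpGen.lean`:

* `cyclicLayer_tc119 p : CyclicLayerGen119 p admTC119`     (G-CYC),
* `pClassUpper_tc119 p : PClassUpperGen119 p admTC119`     (G-UP),
* `cyclicPow_tc119 p`                                       (G-CYCp),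

all unconditional, for every prime `p`.  For `p = 2`: `pClassUpper_two_tc119`.

Imports: Mathlib + plain files on main only.
-/

set_option autoImplicit false
set_option linter.style.haveILetI false
set_option linter.unusedSectionVars false

open scoped NumberField TensorProduct Pointwise
open IsDedekindDomain CategoryTheory groupCohomology NumberField
open Fermat.Agent.S55 Fermat.Agent.S55.G Fermat.Agent.S55.G.UpH119
open Fermat.Agent.S55.G.DescH773 Fermat.Agent.S55.G.SI777

noncomputable section

namespace Fermat.Agent.LT.CFT.H119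

/-- **G-SI at every prime, every side condition** (the proof of `SI777.secondInequality_of`;
neither `p ≠ 2` nor the side condition nor the root of unity is used). -/
theorem secondIneqGen119 (p : ℕ) [hp : Fact p.Prime] (Adm : SideCond119) :
    SecondIneqGen119 p Adm := by
  intro S G L _ _ _ _ _ _ _ hpS hcard hunr _
  have hB : IndexBoundStatement := Fermat.Agent.S55.H963.Br.indexBound
  have hT : T.CyclicCardSpec := T.H895.cyclicCard
  have hS : S.Nonempty := ⟨_, hpS⟩
  let _ : Fintype G := Fintype.ofFinite G
  have : IsCyclic G := isCyclic_of_prime_card hcard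
  have hin : ∀ w : HeightOneSpectrum (𝓞 L), ¬ IsAbove S L w →
      ∀ g : G, (∀ x : 𝓞 L, g • x - x ∈ w.asIdeal) → g = 1 := by
    intro w hw g hg
    exact FaithfulSMul.eq_of_smul_eq_smul (α := L) (fun x => by rw [hunr w hw g hg x, one_smul])
  have hur : ∀ w : PrimeOut S L, eAt (FixedPoints.subfield G L) w.1 = 1 :=
    fun w => SI777.eAt_eq_one_of_inertia G (FixedPoints.subfield G L) w.1 (hin w.1 w.2)
  have hfin : Module.finrank (FixedPoints.subfield G L) L = p := by
    rw [← IsGaloisGroup.card_eq_finrank G, hcard]
  have hcardF : Fintype.card G = p := by rw [← Nat.card_eq_fintype_card, hcard]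
  have hpmem : ∀ c : CS S (FixedPoints.subfield G L),
      p • c ∈ normSub S G (FixedPoints.subfield G L) L :=
    fun c => hcardF ▸ card_smul_mem_normSub S G (FixedPoints.subfield G L) L c
  obtain ⟨h0, hle⟩ := hB S (FixedPoints.subfield G L) L p hp.out.pos hS
    (normSub S G (FixedPoints.subfield G L) L) hpmem
    (fun w hw => single_mem_normSub S G (FixedPoints.subfield G L) L hur w (fun g hg =>
      stabilizer_trivial G (FixedPoints.subfield G L) w.1 (hin w.1 w.2)
        (inertiaDeg_eq_one_of_absNorm_prime (FixedPoints.subfield G L) w.1 hw) g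
        (congrArg Subtype.val hg)))
  rw [hfin] at hle
  have hdvd : (normSub S G (FixedPoints.subfield G L) L).index ∣ p :=
    index_dvd_prime _ p hp.out hpmem h0 hle
  have hH2 : Nat.card (groupCohomology (CRep S G L) 2) =
      (normSub S G (FixedPoints.subfield G L) L).index := by
    rw [(hT ℤ G (CRep S G L)).1]
    exact relIndex_norm_invariants S G (FixedPoints.subfield G L) L hS hur
  refine ⟨?_, hH2 ▸ hdvd⟩
  exact Nat.finite_of_card_ne_zero (hH2 ▸ h0)

/-- **G-CYC over a totally complex base, every prime** (unconditional): for `G` of prime order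
`p` acting faithfully on `L`, `p ∈ S`, `L / L^G` unramified outside `S`, `L^G` totally complex:
`H¹(G, C_S(L)) = 0` and `|H²(G, C_S(L))| = p`. -/
theorem cyclicLayer_tc119 (p : ℕ) [hp : Fact p.Prime] : CyclicLayerGen119 p admTC119 :=
  cyclicLayer_admTC119 p (secondIneqGen119 p admTC119)

/-- **G-UP over a totally complex base, every prime** (unconditional): for a `p`-group `G`
acting faithfully on `L`, `p ∈ S`, unramified outside `S`, `L^G` totally complex, and every
subgroup `H ≤ G`: `H¹(H, C_S(L)) = 0` and `|H²(H, C_S(L))|` divides `|H|`. -/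
theorem pClassUpper_tc119 (p : ℕ) [hp : Fact p.Prime] : PClassUpperGen119 p admTC119 :=
  pClassUpper_admTC119 p (secondIneqGen119 p admTC119) DescH773.descentSpec

/-- **G-UP at `p = 2` over a totally complex base**, spelled out. -/
theorem pClassUpper_two_tc119 (S : Finset Nat.Primes) (G L : Type) [Group G] [Finite G]
    [Field L] [NumberField L] [MulSemiringAction G L] [FaithfulSMul G L]
    (hTC : ∀ v : InfinitePlace (FixedPoints.subfield G L), v.IsComplex)
    (h2S : (⟨2, Nat.prime_two⟩ : Nat.Primes) ∈ S) (hG : IsPGroup 2 G)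
    (hunr : IsUnramOut S G L) (H : Subgroup G) :
    Limits.IsZero (groupCohomology (T.resSub (CRep S G L) H) 1) ∧
      T.CardDvd (groupCohomology (T.resSub (CRep S G L) H) 2) (Nat.card H) := by
  haveI : Fact (Nat.Prime 2) := ⟨Nat.prime_two⟩
  refine pClassUpper_tc119 2 S G L ((admTC_iff119 G L).2 hTC) h2S hG hunr ?_ H
  refine ⟨-1, ?_, fun g => ?_⟩
  · rw [IsPrimitiveRoot.iff_def]
    refine ⟨by norm_num, fun l hl => ?_⟩
    rcases Nat.even_or_odd l with he | ho
    · exact even_iff_two_dvd.1 he
    · rw [ho.neg_one_pow] at hl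
      exact absurd hl (by norm_num)
  · rw [smul_neg, smul_one]

/-- **G-CYCp over a totally complex base, every prime** (unconditional): for a cyclic `p`-group
`G` acting faithfully on `L`, `p ∈ S`, unramified outside `S`, `μ_p ⊂ L^G`, `L^G` totally
complex: `H¹(G, C_S(L)) = 0` and `|H²(G, C_S(L))| = |G|`. -/
theorem cyclicPow_tc119 (p : ℕ) [hp : Fact p.Prime] (S : Finset Nat.Primes) (G L : Type)
    [Group G] [Finite G] [IsCyclic G] [Field L] [NumberField L] [MulSemiringAction G L]
    [FaithfulSMul G L] (hA : admTC119 G L) (hpS : (⟨p, hp.out⟩ : Nat.Primes) ∈ S)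
    (hpG : IsPGroup p G) (hunr : IsUnramOut S G L) (hroot : HasFixedRootOfUnity p G L) :
    Limits.IsZero (groupCohomology (CRep S G L) 1) ∧
      Nat.card (groupCohomology (CRep S G L) 2) = Nat.card G := by
  have h1 : Limits.IsZero (groupCohomology (CRep S G L) 1) :=
    CycPowH184.isZero_H1_of_resSub_top _ (pClassUpper_tc119 p S G L hA hpS hpG hunr hroot ⊤).1
  refine ⟨h1, ?_⟩
  have h2 := (firstIneqCyc_admTC119 (Nat.card G) S G L hA ⟨_, hpS⟩ rfl).2.2
  have hsub : Subsingleton (groupCohomology (CRep S G L) 1) :=
    ModuleCat.subsingleton_of_isZero h1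
  have hc : Nat.card (groupCohomology (CRep S G L) 1) = 1 :=
    Nat.card_eq_one_iff_unique.2 ⟨hsub, ⟨0⟩⟩
  rw [h2, hc, mul_one]

end Fermat.Agent.LT.CFT.H119
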