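import Fermat.Agent.LT.CFT.SpecH
import Fermat.Agent.LT.CFT.H119.ClosedTC

/-!
# Row LT, tower CFT (architect helper53): leaf CYC-VANISH `CycVanishC`, PROVED (helper119)

`cycVanish119 : Fermat.Agent.LT.CFT.CycVanishC` (bytes of `LT/CFT/SpecH.lean`, helper53):
for a cyclic group `G` of ANY order acting faithfully on a number field `L`, `L^G` totally
complex, `S ≠ ∅`, `L / L^G` unramified outside `S`:
`H¹(G, C_S(L)) = 0` and `|H²(G, C_S(L))| = |G|`.

Proof: the first inequality `|H²| = n · |H¹|` (`firstIneqCyc_admTC119`, from the Herbrand form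
on main, `∏_{v | ∞} n_v = 1`) and the second inequality `|H²| ≤ n` (`secondIneqCyc119`: the
analytic index bound `H963.Br.indexBound` of main for the norm subgroup, Galois descent
`DescH773`, `T.H895.cyclicCard`).

Also `secondIneqCyc119` (no condition at infinity) and the odd analogue `cycVanish_odd119`.
Imports: `SpecH.lean` (byte copy) + plain files on main only.
-/

set_option autoImplicit false
set_option linter.style.haveILetI false
set_option linter.unusedSectionVars false

open scoped NumberField TensorProduct Pointwise
open IsDedekindDomain CategoryTheory groupCohomology NumberField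
open Fermat.Agent.S55 Fermat.Agent.S55.G Fermat.Agent.S55.G.UpH119
open Fermat.Agent.S55.G.DescH773 Fermat.Agent.S55.G.SI777

noncomputable section

namespace Fermat.Agent.LT.CFT.H119

/-- **Second inequality, cyclic groups of ANY order** (no condition at infinity, no root of
unity): `H²(G, C_S(L))` is finite of order at most `|G|`. -/
theorem secondIneqCyc119 (S : Finset Nat.Primes) (G L : Type) [Group G] [Finite G]
    [IsCyclic G] [Field L] [NumberField L] [MulSemiringAction G L] [FaithfulSMul G L]
    (hS : S.Nonempty) (hunr : IsUnramOut S G L) :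
    Finite (groupCohomology (CRep S G L) 2) ∧
      Nat.card (groupCohomology (CRep S G L) 2) ≤ Nat.card G := by
  have hB : IndexBoundStatement := Fermat.Agent.S55.H963.Br.indexBound
  have hT : T.CyclicCardSpec := T.H895.cyclicCard
  let _ : Fintype G := Fintype.ofFinite G
  have hin : ∀ w : HeightOneSpectrum (𝓞 L), ¬ IsAbove S L w →
      ∀ g : G, (∀ x : 𝓞 L, g • x - x ∈ w.asIdeal) → g = 1 := by
    intro w hw g hg
    exact FaithfulSMul.eq_of_smul_eq_smul (α := L) (fun x => by rw [hunr w hw g hg x, one_smul])
  have hur : ∀ w : PrimeOut S L, eAt (FixedPoints.subfield G L) w.1 = 1 :=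
    fun w => SI777.eAt_eq_one_of_inertia G (FixedPoints.subfield G L) w.1 (hin w.1 w.2)
  have hfin : Module.finrank (FixedPoints.subfield G L) L = Nat.card G := by
    rw [← IsGaloisGroup.card_eq_finrank G]
  have hcardF : Fintype.card G = Nat.card G := by rw [← Nat.card_eq_fintype_card]
  have hpmem : ∀ c : CS S (FixedPoints.subfield G L),
      Nat.card G • c ∈ normSub S G (FixedPoints.subfield G L) L :=
    fun c => hcardF ▸ card_smul_mem_normSub S G (FixedPoints.subfield G L) L c
  obtain ⟨h0, hle⟩ := hB S (FixedPoints.subfield G L) L (Nat.card G) Nat.card_pos hS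
    (normSub S G (FixedPoints.subfield G L) L) hpmem
    (fun w hw => single_mem_normSub S G (FixedPoints.subfield G L) L hur w (fun g hg =>
      stabilizer_trivial G (FixedPoints.subfield G L) w.1 (hin w.1 w.2)
        (inertiaDeg_eq_one_of_absNorm_prime (FixedPoints.subfield G L) w.1 hw) g
        (congrArg Subtype.val hg)))
  rw [hfin] at hle
  have hH2 : Nat.card (groupCohomology (CRep S G L) 2) =
      (normSub S G (FixedPoints.subfield G L) L).index := by
    rw [(hT ℤ G (CRep S G L)).1]
    exact relIndex_norm_invariants S G (FixedPoints.subfield G L) L hS hur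
  exact ⟨Nat.finite_of_card_ne_zero (hH2 ▸ h0), hH2 ▸ hle⟩

/-- The cyclic layer from the two inequalities: `H¹ = 0` and `|H²| = n`. -/
theorem cyc_of_inequalities119 (S : Finset Nat.Primes) (G L : Type) [Group G] [Finite G]
    [IsCyclic G] [Field L] [NumberField L] [MulSemiringAction G L] [FaithfulSMul G L]
    (hS : S.Nonempty) (hunr : IsUnramOut S G L)
    (hFI : Finite (groupCohomology (CRep S G L) 1) ∧ Finite (groupCohomology (CRep S G L) 2) ∧
      Nat.card (groupCohomology (CRep S G L) 2) =
        Nat.card G * Nat.card (groupCohomology (CRep S G L) 1)) :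
    Limits.IsZero (groupCohomology (CRep S G L) 1) ∧
      Nat.card (groupCohomology (CRep S G L) 2) = Nat.card G := by
  obtain ⟨hf1, _, hc⟩ := hFI
  obtain ⟨_, hle⟩ := secondIneqCyc119 S G L hS hunr
  have hpos1 : 0 < Nat.card (groupCohomology (CRep S G L) 1) := Nat.card_pos
  have hn : 0 < Nat.card G := Nat.card_pos
  rw [hc] at hle
  have h1 : Nat.card (groupCohomology (CRep S G L) 1) = 1 := by
    have : Nat.card (groupCohomology (CRep S G L) 1) ≤ 1 := by
      by_contra hcon
      rw [not_le] at hcon
      have : Nat.card G * 2 ≤ Nat.card G * Nat.card (groupCohomology (CRep S G L) 1) :=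
        Nat.mul_le_mul_left _ hcon
      omega
    omega
  refine ⟨?_, ?_⟩
  · rw [ModuleCat.isZero_iff_subsingleton]
    exact (Nat.card_eq_one_iff_unique.1 h1).1
  · rw [hc, h1, mul_one]

/-- **Leaf CYC-VANISH** (helper53 `SpecH.lean`), PROVED: the cyclic layer for a cyclic group of
ANY order over a totally complex base. -/
theorem cycVanish119 : Fermat.Agent.LT.CFT.CycVanishC := by
  intro S G L _ _ _ _ _ _ _ hTC hS hunr
  have hA : admTC119 G L := (admTC_iff119 G L).2 (fun v => hTC.isComplex v)
  exact cyc_of_inequalities119 S G L hS hunr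
    (firstIneqCyc_admTC119 (Nat.card G) S G L hA hS rfl)

/-- The odd analogue (no condition at infinity): cyclic groups of odd order. -/
theorem cycVanish_odd119 (S : Finset Nat.Primes) (G L : Type) [Group G] [Finite G]
    [IsCyclic G] [Field L] [NumberField L] [MulSemiringAction G L] [FaithfulSMul G L]
    (hodd : Odd (Nat.card G)) (hS : S.Nonempty) (hunr : IsUnramOut S G L) :
    Limits.IsZero (groupCohomology (CRep S G L) 1) ∧
      Nat.card (groupCohomology (CRep S G L) 2) = Nat.card G :=
  cyc_of_inequalities119 S G L hS hunr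
    (FIClosedH604.firstInequalityCyc (Nat.card G) hodd S G L hS rfl)

end Fermat.Agent.LT.CFT.H119
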