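import Fermat.Agent.LT.CFT.H119.UpGen
import Fermat.Agent.S55.G.FIClosedH604

/-!
# Row LT, tower CFT (architect helper53), leaf UP-GEN (helper119), part 2:
# the side condition "the base field `L^G` is TOTALLY COMPLEX" and the FIRST INEQUALITY at
# every prime (in particular `p = 2`)

* `admTC119 G L` : every embedding `φ : L → ℂ` moves, under complex conjugation, the image of
  some `G`-fixed element of `L` (no Mathlib structure on the fixed field is needed to state it);
* `admTC_iff119` : `admTC119 G L ↔ ∀ v : InfinitePlace (L^G), v.IsComplex`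
  (= `TotallyComplex (FixedPoints.subfield G L)` of `LT/CFT/Spec.lean`);
* `isStable_admTC119 : IsStable119 admTC119` (subgroups, quotient layers);
* `infDegProd_eq_one_of_admTC119` : no infinite place of `L^G` ramifies in `L`;
* `firstIneqGen_admTC119 p : FirstIneqGen119 p admTC119`, UNCONDITIONAL, for every `p`
  (from the landed Herbrand form of the first inequality, which carries the factor
  `∏_{v | ∞} n_v`), and the cyclic form `firstIneqCyc_admTC119` for every order `n`;
* `pClassUpper_admTC119` : the upper bound for `p`-groups over a totally complex base from the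
  SECOND inequality alone (the only open input at `p = 2`).

Imports: Mathlib + plain files on main only.
-/

set_option autoImplicit false
set_option linter.style.haveILetI false
set_option linter.unusedSectionVars false

open scoped NumberField TensorProduct Pointwise ComplexConjugate
open IsDedekindDomain CategoryTheory groupCohomology NumberField
open Fermat.Agent.S55 Fermat.Agent.S55.G Fermat.Agent.S55.G.UpH119
open Fermat.Agent.S55.Herbrand

noncomputable section

namespace Fermat.Agent.LT.CFT.H119

/-- **Side condition TC**: the fixed field `L^G` is totally complex, stated on embeddings of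
`L`: every `φ : L → ℂ` is non-real on some `G`-fixed element. -/
def admTC119 : SideCond119 := fun G L _ _ _ _ =>
  ∀ φ : L →+* ℂ, ∃ x : L, (∀ g : G, g • x = x) ∧ conj (φ x) ≠ φ x

section Basic

variable (G L : Type) [Group G] [Field L] [NumberField L] [MulSemiringAction G L]

/-- Under TC every infinite place of the fixed field is complex. -/
theorem isComplex_of_admTC119 (h : admTC119 G L)
    (v : InfinitePlace (FixedPoints.subfield G L)) : v.IsComplex := by
  rw [InfinitePlace.isComplex_iff, ComplexEmbedding.isReal_iff]
  intro hreal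
  obtain ⟨x, hx, hne⟩ := h (ComplexEmbedding.lift L v.embedding)
  apply hne
  have hx' : x ∈ FixedPoints.subfield G L := fun g => hx g
  have e : ComplexEmbedding.lift L v.embedding x = v.embedding ⟨x, hx'⟩ :=
    ComplexEmbedding.lift_algebraMap_apply L v.embedding ⟨x, hx'⟩
  rw [e]
  have := RingHom.congr_fun hreal ⟨x, hx'⟩
  rwa [ComplexEmbedding.conjugate_coe_eq] at this

/-- TC is the total complexity of the fixed field. -/
theorem admTC_iff119 :
    admTC119 G L ↔ ∀ v : InfinitePlace (FixedPoints.subfield G L), v.IsComplex := by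
  refine ⟨isComplex_of_admTC119 G L, fun h φ => ?_⟩
  have hc := h (InfinitePlace.mk (φ.comp (algebraMap (FixedPoints.subfield G L) L)))
  rw [InfinitePlace.isComplex_mk_iff, ComplexEmbedding.isReal_iff] at hc
  by_contra hcon
  push Not at hcon
  apply hc
  refine RingHom.ext fun y => ?_
  rw [ComplexEmbedding.conjugate_coe_eq]
  exact hcon (y : L) (fun g => y.2 g)

/-- Under TC no infinite place of `L^G` ramifies in `L`. -/
theorem isUnramifiedIn_of_admTC119 (h : admTC119 G L)
    (v : InfinitePlace (FixedPoints.subfield G L)) : v.IsUnramifiedIn L := by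
  intro w hw
  rw [InfinitePlace.isUnramified_iff]
  right
  rw [hw]
  exact isComplex_of_admTC119 G L h v

/-- Under TC the product of the local degrees at infinity is `1`. -/
theorem infDegProd_eq_one_of_admTC119 (h : admTC119 G L) :
    infDegProd (FixedPoints.subfield G L) L = 1 := by
  unfold infDegProd
  refine Finset.prod_eq_one fun v _ => ?_
  rw [if_pos (isUnramifiedIn_of_admTC119 G L h v)]

end Basic

/-! ## Stability -/

/-- **TC is stable** under subgroups and quotient layers. -/
theorem isStable_admTC119 : IsStable119 admTC119 := by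
  refine ⟨?_, ?_⟩
  · intro G L _ _ _ _ H h φ
    obtain ⟨x, hx, hne⟩ := h φ
    exact ⟨x, fun g => hx (g : G), hne⟩
  · intro G L _ _ _ _ N _ h
    letI := quotAct G L N
    intro φ'
    obtain ⟨x, hx, hne⟩ := h (ComplexEmbedding.lift L φ')
    have hxN : x ∈ FixedPoints.subfield N L := fun n => hx (n : G)
    refine ⟨⟨x, hxN⟩, ?_, ?_⟩
    · intro q
      induction q using Quotient.inductionOn' with
      | h g => exact Subtype.ext (hx g)
    · have e : ComplexEmbedding.lift L φ' x = φ' ⟨x, hxN⟩ :=
        ComplexEmbedding.lift_algebraMap_apply L φ' ⟨x, hxN⟩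
      rwa [e] at hne

/-! ## The first inequality over a totally complex base, every cyclic order -/

/-- **G-FIc over a totally complex base**: for a cyclic group `G` of ANY order `n` acting
faithfully on `L` with `L^G` totally complex and `S ≠ ∅`: `H¹(G, C_S(L))`, `H²(G, C_S(L))` are
finite and `|H²(G, C_S(L))| = n · |H¹(G, C_S(L))|`.  Unconditional. -/
theorem firstIneqCyc_admTC119 (n : ℕ) (S : Finset Nat.Primes) (G L : Type) [Group G] [Finite G]
    [IsCyclic G] [Field L] [NumberField L] [MulSemiringAction G L] [FaithfulSMul G L]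
    (hA : admTC119 G L) (hS : S.Nonempty) (hcard : Nat.card G = n) :
    Finite (groupCohomology (CRep S G L) 1) ∧ Finite (groupCohomology (CRep S G L) 2) ∧
    Nat.card (groupCohomology (CRep S G L) 2) =
      n * Nat.card (groupCohomology (CRep S G L) 1) := by
  classical
  have hFI : FIH895.FirstIneqSpec :=
    FIH895.firstIneqSpec_of sUnitsHerbrandSpec FIClosedH604.jHerbrand FIH895.clSFiniteSpec
  letI : Fintype G := Fintype.ofFinite G
  obtain ⟨g, hg⟩ := IsCyclic.exists_generator (α := G)
  have hσ : ∀ τ : L ≃ₐ[FixedPoints.subfield G L] L,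
      τ ∈ Subgroup.zpowers (FixedPoints.toAlgAutMulEquiv G L g) := by
    intro τ
    obtain ⟨t, rfl⟩ := (FixedPoints.toAlgAutMulEquiv G L).surjective τ
    obtain ⟨k, rfl⟩ := Subgroup.mem_zpowers_iff.1 (hg t)
    exact Subgroup.mem_zpowers_iff.2 ⟨k, (map_zpow (FixedPoints.toAlgAutMulEquiv G L) g k).symm⟩
  have hcardeq : Nat.card (L ≃ₐ[FixedPoints.subfield G L] L) = Nat.card G :=
    (Nat.card_congr (FixedPoints.toAlgAutMulEquiv G L).toEquiv).symm
  have hfr : Module.finrank (FixedPoints.subfield G L) L = n := by
    rw [← IsGalois.card_aut_eq_finrank, hcardeq, hcard]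
  obtain ⟨c0, c1, hc⟩ := hFI (FixedPoints.subfield G L) L (FixedPoints.toAlgAutMulEquiv G L g)
    hσ S hS
  have hact : (gAct (CRep S G L) g : AddMonoid.End (CS S L)) =
      gAct (CRep S (L ≃ₐ[FixedPoints.subfield G L] L) L) (FixedPoints.toAlgAutMulEquiv G L g) :=
    FIH895.gAct_CRep_congr S fun _ => rfl
  rw [infDegProd_eq_one_of_admTC119 G L hA, mul_one, hfr] at hc
  have e0 : Nat.card (groupCohomology (CRep S G L) 2) =
      h0 (gAct (CRep S (L ≃ₐ[FixedPoints.subfield G L] L) L)
        (FixedPoints.toAlgAutMulEquiv G L g)) (Nat.card (L ≃ₐ[FixedPoints.subfield G L] L)) := by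
    rw [card_H2_eq_h0 (CRep S G L) g hg, hcardeq]
    exact congrArg (fun s : AddMonoid.End (CS S L) => h0 s (Nat.card G)) hact
  have e1 : Nat.card (groupCohomology (CRep S G L) 1) =
      h1 (gAct (CRep S (L ≃ₐ[FixedPoints.subfield G L] L) L)
        (FixedPoints.toAlgAutMulEquiv G L g)) (Nat.card (L ≃ₐ[FixedPoints.subfield G L] L)) := by
    rw [card_H1_eq_h1 (CRep S G L) g hg, hcardeq]
    exact congrArg (fun s : AddMonoid.End (CS S L) => h1 s (Nat.card G)) hact
  rw [← e0] at c0 hc
  rw [← e1] at c1 hc
  exact ⟨(Nat.card_ne_zero.1 c1).2, (Nat.card_ne_zero.1 c0).2, by rw [hc, mul_comm]⟩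

/-- **G-FI over a totally complex base, every prime `p`** (in particular `p = 2`).
Unconditional. -/
theorem firstIneqGen_admTC119 (p : ℕ) [hp : Fact p.Prime] : FirstIneqGen119 p admTC119 := by
  intro S G L _ _ _ _ _ _ hA hS hcard
  haveI : IsCyclic G := isCyclic_of_prime_card (p := p) hcard
  exact firstIneqCyc_admTC119 p S G L hA hS hcard

/-! ## The remaining input at `p = 2` is the second inequality -/

/-- The cyclic layer over a totally complex base from the second inequality alone. -/
theorem cyclicLayer_admTC119 (p : ℕ) [hp : Fact p.Prime] (hSI : SecondIneqGen119 p admTC119) :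
    CyclicLayerGen119 p admTC119 :=
  cyclicLayerGen_of119 p admTC119 (firstIneqGen_admTC119 p) hSI

/-- **G-UP over a totally complex base, every prime `p`**, from the second inequality and
Galois descent (`DescentSpec`, landed Spec of layer G; its proof on main has no prime in it). -/
theorem pClassUpper_admTC119 (p : ℕ) [hp : Fact p.Prime] (hSI : SecondIneqGen119 p admTC119)
    (hD : DescentSpec) : PClassUpperGen119 p admTC119 :=
  pClassUpperGen_of119 p admTC119 isStable_admTC119 (cyclicLayer_admTC119 p hSI) hD

end Fermat.Agent.LT.CFT.H119
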