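import Fermat.Agent.S55.G.UpH119.Desc
import Fermat.Agent.S55.T.UglyH954

/-!
# Row LT, tower CFT (architect helper53), leaf UP-GEN (helper119): G-UP and G-CYC for EVERY prime

The landed layer G of S55 (`Fermat/Agent/S55/G`) proves the class-module property of the
`S`-idèle class group `C_S(L)` for `p`-groups with `p` ODD.  In the dévissage `G-UP`
(`S55/G/UpH119`) the oddness of `p` is only passed through to the cyclic layer.  Here the same
dévissage is proved for an arbitrary prime `p` (so `p = 2` is allowed) and an arbitrary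
SIDE CONDITION `Adm G L` on the pair (group, field) which is stable under subgroups and under
quotient layers:

* `cyclicLayerGen_of119` : first + second inequality ⟹ cyclic layer;
* `pClassUpperGen_of119` : cyclic layer + Galois descent (`S55.G.DescentSpec`, landed, no `p`
  inside) ⟹ for every subgroup `H` of a `p`-group `G`: `H¹(H, C_S(L)) = 0` and
  `|H²(H, C_S(L))|` divides `|H|`.

Instances of the side condition are in `AdmTC.lean` (the base field `L^G` is totally complex)
and below (`fun _ _ => True`, which gives back the landed `PClassUpperSpec` for odd `p`).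

Imports: Mathlib + plain files on main only.
-/

set_option autoImplicit false
set_option linter.style.haveILetI false
set_option linter.unusedSectionVars false

open scoped NumberField TensorProduct Pointwise
open IsDedekindDomain CategoryTheory groupCohomology
open Fermat.Agent.S55 Fermat.Agent.S55.G Fermat.Agent.S55.G.UpH119

noncomputable section

namespace Fermat.Agent.LT.CFT.H119

/-- A side condition on a pair (group acting on a number field). -/
abbrev SideCond119 : Type 1 :=
  ∀ (G L : Type) [Group G] [Field L] [NumberField L] [MulSemiringAction G L], Prop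

/-- Stability of a side condition under subgroups (same field) and under quotient layers
(`G ⧸ N` acting on the fixed field `L^N`). -/
structure IsStable119 (Adm : SideCond119) : Prop where
  sub : ∀ (G L : Type) [Group G] [Field L] [NumberField L] [MulSemiringAction G L]
    (H : Subgroup G), Adm G L → Adm H L
  quot : ∀ (G L : Type) [Group G] [Field L] [NumberField L] [MulSemiringAction G L]
    (N : Subgroup G) [N.Normal], Adm G L →
    @Adm (G ⧸ N) (FixN G L N) _ _ _ (quotAct G L N)

/-! ## The generic Specs (shape of `S55/G/Spec.lean`, `p ≠ 2` replaced by `Adm G L`) -/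

/-- First inequality, generic side condition. -/
def FirstIneqGen119 (p : ℕ) (Adm : SideCond119) : Prop :=
  ∀ (S : Finset Nat.Primes) (G L : Type) [Group G] [Finite G] [Field L] [NumberField L]
    [MulSemiringAction G L] [FaithfulSMul G L],
    Adm G L → S.Nonempty → Nat.card G = p →
    Finite (groupCohomology (CRep S G L) 1) ∧ Finite (groupCohomology (CRep S G L) 2) ∧
    Nat.card (groupCohomology (CRep S G L) 2) = p * Nat.card (groupCohomology (CRep S G L) 1)

/-- Second inequality, generic side condition. -/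
def SecondIneqGen119 (p : ℕ) [hp : Fact p.Prime] (Adm : SideCond119) : Prop :=
  ∀ (S : Finset Nat.Primes) (G L : Type) [Group G] [Finite G] [Field L] [NumberField L]
    [MulSemiringAction G L] [FaithfulSMul G L],
    Adm G L → (⟨p, hp.out⟩ : Nat.Primes) ∈ S → Nat.card G = p → IsUnramOut S G L →
    HasFixedRootOfUnity p G L →
    T.CardDvd (groupCohomology (CRep S G L) 2) p

/-- Cyclic layer of degree `p`, generic side condition. -/
def CyclicLayerGen119 (p : ℕ) [hp : Fact p.Prime] (Adm : SideCond119) : Prop :=
  ∀ (S : Finset Nat.Primes) (G L : Type) [Group G] [Finite G] [Field L] [NumberField L]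
    [MulSemiringAction G L] [FaithfulSMul G L],
    Adm G L → (⟨p, hp.out⟩ : Nat.Primes) ∈ S → Nat.card G = p → IsUnramOut S G L →
    HasFixedRootOfUnity p G L →
    Limits.IsZero (groupCohomology (CRep S G L) 1) ∧
      Nat.card (groupCohomology (CRep S G L) 2) = p

/-- The upper bound for `p`-groups, generic side condition. -/
def PClassUpperGen119 (p : ℕ) [hp : Fact p.Prime] (Adm : SideCond119) : Prop :=
  ∀ (S : Finset Nat.Primes) (G L : Type) [Group G] [Finite G] [Field L] [NumberField L]
    [MulSemiringAction G L] [FaithfulSMul G L],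
    Adm G L → (⟨p, hp.out⟩ : Nat.Primes) ∈ S → IsPGroup p G → IsUnramOut S G L →
    HasFixedRootOfUnity p G L →
    ∀ H : Subgroup G,
      Limits.IsZero (groupCohomology (T.resSub (CRep S G L) H) 1) ∧
      T.CardDvd (groupCohomology (T.resSub (CRep S G L) H) 2) (Nat.card H)

/-! ## G-CYC -/

/-- **G-CYC, generic**: the cyclic layer from the two inequalities. -/
theorem cyclicLayerGen_of119 (p : ℕ) [hp : Fact p.Prime] (Adm : SideCond119)
    (hFI : FirstIneqGen119 p Adm) (hSI : SecondIneqGen119 p Adm) :
    CyclicLayerGen119 p Adm := by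
  intro S G L _ _ _ _ _ _ hA hpS hcard hunr hζ
  have hS : S.Nonempty := ⟨_, hpS⟩
  obtain ⟨hf1, hf2, hc⟩ := hFI S G L hA hS hcard
  obtain ⟨_, hd⟩ := hSI S G L hA hpS hcard hunr hζ
  have hpos1 : 0 < Nat.card (groupCohomology (CRep S G L) 1) := Nat.card_pos
  rw [hc] at hd
  have h1 : Nat.card (groupCohomology (CRep S G L) 1) = 1 := by
    have hle : p * Nat.card (groupCohomology (CRep S G L) 1) ≤ p :=
      Nat.le_of_dvd hp.out.pos hd
    have : Nat.card (groupCohomology (CRep S G L) 1) ≤ 1 := by
      by_contra hcon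
      rw [not_le] at hcon
      have : p * 2 ≤ p * Nat.card (groupCohomology (CRep S G L) 1) :=
        Nat.mul_le_mul_left p hcon
      have hp0 := hp.out.pos
      omega
    omega
  refine ⟨?_, ?_⟩
  · rw [ModuleCat.isZero_iff_subsingleton]
    exact (Nat.card_eq_one_iff_unique.1 h1).1
  · rw [hc, h1, mul_one]

/-! ## G-UP -/

section Layer

variable (S : Finset Nat.Primes) (G L : Type) [Group G] [Finite G] [Field L] [NumberField L]
  [MulSemiringAction G L] [FaithfulSMul G L] (N : Subgroup G) [N.Normal]

/-- The cyclic layer `G ⧸ N` of order `p`: `H¹(G ⧸ N, C_S(L)^N) = 0` and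
`|H²(G ⧸ N, C_S(L)^N)|` divides `p`. -/
theorem quot_layerGen119 (p : ℕ) [hp : Fact p.Prime] (Adm : SideCond119)
    (hst : IsStable119 Adm) (hC : CyclicLayerGen119 p Adm) (hD : DescentSpec)
    (hA : Adm G L) (hpS : (⟨p, hp.out⟩ : Nat.Primes) ∈ S) (hunr : IsUnramOut S G L)
    (hζ : HasFixedRootOfUnity p G L) (hcard : Nat.card (G ⧸ N) = p) :
    Limits.IsZero (groupCohomology ((CRep S G L).quotientToInvariants N) 1) ∧
    T.CardDvd (groupCohomology ((CRep S G L).quotientToInvariants N) 2) p := by
  letI := quotAct G L N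
  haveI := faithfulSMul_quot G L N
  obtain ⟨h1, h2⟩ := hC S (G ⧸ N) (FixN G L N) (hst.quot G L N hA) hpS hcard
    (isUnramOut_quot S G L N hunr) (hasFixedRootOfUnity_quot G L N p hζ)
  obtain ⟨e1⟩ := nonempty_iso_quot S G L N hD ⟨_, hpS⟩ hunr 1
  obtain ⟨e2⟩ := nonempty_iso_quot S G L N hD ⟨_, hpS⟩ hunr 2
  refine ⟨Limits.IsZero.of_iso h1 e1.symm, ?_⟩
  have hfin : Finite (groupCohomology (CRep S (G ⧸ N) (FixN G L N)) 2) :=
    Nat.finite_of_card_ne_zero (by rw [h2]; exact hp.out.ne_zero)
  exact T.H954.cardDvd_of_iso e2.symm ⟨hfin, by rw [h2]⟩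

end Layer

section Induction

variable (S : Finset Nat.Primes) (L : Type) [Field L] [NumberField L]

/-- `H¹(G, C_S(L)) = 0` for `p`-groups, by induction on the order. -/
theorem h1_isZeroGen119 (p : ℕ) [hp : Fact p.Prime] (Adm : SideCond119)
    (hst : IsStable119 Adm) (hC : CyclicLayerGen119 p Adm) (hD : DescentSpec)
    (hpS : (⟨p, hp.out⟩ : Nat.Primes) ∈ S) :
    ∀ (n : ℕ) (G : Type) [Group G] [Finite G] [MulSemiringAction G L] [FaithfulSMul G L],
      Adm G L → Nat.card G = p ^ n → IsUnramOut S G L → HasFixedRootOfUnity p G L →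
      Limits.IsZero (groupCohomology (CRep S G L) 1) := by
  intro n
  induction n with
  | zero =>
    intro G _ _ _ _ _ hG _ _
    rw [pow_zero] at hG
    rw [ModuleCat.isZero_iff_subsingleton]
    exact ⟨fun a b => (Fermat.Agent.S55.H954.H1_eq_zero_of_card_eq_one (CRep S G L) hG a).trans
      (Fermat.Agent.S55.H954.H1_eq_zero_of_card_eq_one (CRep S G L) hG b).symm⟩
  | succ n ih =>
    intro G _ _ _ _ hA hG hunr hζ
    obtain ⟨K, hK⟩ := Sylow.exists_subgroup_card_pow_prime (G := G) p (n := n)
      (by rw [hG]; exact pow_dvd_pow p (Nat.le_succ n))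
    have hidx : K.index = p := by
      have h := K.card_mul_index
      rw [hK, hG, pow_succ] at h
      exact Nat.eq_of_mul_eq_mul_left (pow_pos hp.out.pos n) h
    haveI hKn : K.Normal := Subgroup.normal_of_index_eq_minFac_card (by
      rw [hidx, hG, Nat.pow_minFac (Nat.succ_ne_zero n), hp.out.minFac_eq])
    have hq : Nat.card (G ⧸ K) = p := by rw [← Subgroup.index_eq_card]; exact hidx
    have hKz : Limits.IsZero (groupCohomology (CRep S K L) 1) :=
      ih K (hst.sub G L K hA) hK (fun w hw g hg x => hunr w hw (g : G) hg x)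
        (by obtain ⟨ζ, h1, h2⟩ := hζ; exact ⟨ζ, h1, fun g => h2 (g : G)⟩)
    have hQz := (quot_layerGen119 S G L K p Adm hst hC hD hA hpS hunr hζ hq).1
    have hK0 : ∀ x : H1 (Rep.res K.subtype (CRep S G L)), x = 0 := fun x =>
      (ModuleCat.isZero_iff_subsingleton.1 hKz).elim x 0
    have hQ0 : ∀ x : H1 ((CRep S G L).quotientToInvariants K), x = 0 := fun x =>
      (ModuleCat.isZero_iff_subsingleton.1 hQz).elim x 0
    rw [ModuleCat.isZero_iff_subsingleton]
    exact ⟨fun a b =>
      (Fermat.Agent.S55.H954.H1_eq_zero_of_normal (CRep S G L) K hK0 hQ0 a).trans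
        (Fermat.Agent.S55.H954.H1_eq_zero_of_normal (CRep S G L) K hK0 hQ0 b).symm⟩

end Induction

/-- **G-UP, generic** (every prime `p`, side condition `Adm` stable under subgroups and
quotient layers): from the cyclic layer and Galois descent. -/
theorem pClassUpperGen_of119 (p : ℕ) [hp : Fact p.Prime] (Adm : SideCond119)
    (hst : IsStable119 Adm) (hC : CyclicLayerGen119 p Adm) (hD : DescentSpec) :
    PClassUpperGen119 p Adm := by
  intro S G L _ _ _ _ _ _ hA hpS hG hunr hζ
  have hsub : ∀ H : Subgroup G, ∃ n, Nat.card H = p ^ n := fun H =>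
    IsPGroup.iff_card.1 (hG.to_subgroup H)
  have hunrH : ∀ H : Subgroup G, IsUnramOut S H L := fun H w hw g hg x =>
    hunr w hw (g : G) hg x
  have hζH : ∀ H : Subgroup G, HasFixedRootOfUnity p H L := fun H => by
    obtain ⟨ζ, h1, h2⟩ := hζ
    exact ⟨ζ, h1, fun g => h2 (g : G)⟩
  have hAH : ∀ H : Subgroup G, Adm H L := fun H => hst.sub G L H hA
  have h1 : ∀ H : Subgroup G,
      Limits.IsZero (groupCohomology (T.resSub (CRep S G L) H) 1) := by
    intro H
    obtain ⟨n, hn⟩ := hsub H
    exact h1_isZeroGen119 S L p Adm hst hC hD hpS n H (hAH H) hn (hunrH H) (hζH H)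
  have h2 : ∀ (H : Subgroup G) (K : Subgroup H) [K.Normal], (Nat.card (H ⧸ K)).Prime →
      T.CardDvd (groupCohomology ((T.resSub (CRep S G L) H).quotientToInvariants K) 2)
        (Nat.card (H ⧸ K)) := by
    intro H K _ hprime
    obtain ⟨n, hn⟩ := hsub H
    have hdvd : Nat.card (H ⧸ K) ∣ p ^ n := by
      rw [← hn, ← Subgroup.index_eq_card]
      exact K.index_dvd_card
    have hqp : Nat.card (H ⧸ K) = p :=
      (Nat.prime_dvd_prime_iff_eq hprime hp.out).1 (hprime.dvd_of_dvd_pow hdvd)
    rw [hqp]
    exact (quot_layerGen119 S H L K p Adm hst hC hD (hAH H) hpS (hunrH H) (hζH H) hqp).2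
  have hugly := T.H954.ugly ℤ G (CRep S G L) h1 h2
  exact fun H => ⟨h1 H, hugly H⟩

/-- **G-UP, generic**, from the two inequalities and descent. -/
theorem pClassUpperGen_of_inequalities119 (p : ℕ) [hp : Fact p.Prime] (Adm : SideCond119)
    (hst : IsStable119 Adm) (hFI : FirstIneqGen119 p Adm) (hSI : SecondIneqGen119 p Adm)
    (hD : DescentSpec) : PClassUpperGen119 p Adm :=
  pClassUpperGen_of119 p Adm hst (cyclicLayerGen_of119 p Adm hFI hSI) hD

/-! ## Sanity: the trivial side condition gives back the landed Specs for odd `p` -/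

/-- The trivial side condition. -/
def admTrue119 : SideCond119 := fun _ _ _ _ _ _ => True

theorem isStable_admTrue119 : IsStable119 admTrue119 :=
  ⟨fun _ _ _ _ _ _ _ _ => trivial, fun _ _ _ _ _ _ _ _ _ => trivial⟩

/-- The landed `CyclicLayerSpec` is the generic one with the trivial side condition at every odd
prime. -/
theorem cyclicLayerGen_of_spec119 (hC : CyclicLayerSpec) (p : ℕ) [hp : Fact p.Prime]
    (hp2 : p ≠ 2) : CyclicLayerGen119 p admTrue119 :=
  fun S G L _ _ _ _ _ _ _ hpS hcard hunr hζ => hC p hp2 S G L hpS hcard hunr hζ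

/-- The generic upper bound with the trivial side condition at every odd prime is the landed
`PClassUpperSpec`. -/
theorem pClassUpperSpec_of_gen119
    (h : ∀ (p : ℕ) [Fact p.Prime], p ≠ 2 → PClassUpperGen119 p admTrue119) :
    PClassUpperSpec :=
  fun p _ hp2 S G L _ _ _ _ _ _ hpS hG hunr hζ => h p hp2 S G L trivial hpS hG hunr hζ

end Fermat.Agent.LT.CFT.H119
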